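import Fermat.Agent.H40.Hasse.Defs
import Fermat.Agent.H70.TorsionCount
import Fermat.Agent.H74.DivPolyTorsion

/-!
# S58 GLUE (helper51): the Hasse relation from its generic form

* `s58_addMonoidHom_eq_zero_of_generic`: over an algebraically closed field, an additive
  endomorphism of the group of points of a Weierstrass curve with `Δ ≠ 0` that vanishes at all
  points whose `x`-coordinate avoids a finite set is zero.
* `hasseRelation_of_generic`: to prove `Fermat.Agent.H40.HasseRelation E` it suffices to prove
  `2 • (φ² - a φ + q) P = 0` for the points `P = (x, y)` over ALGEBRAICALLY CLOSED fields with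
  `x` outside a finite set (which may depend on the field).
-/

set_option autoImplicit false
set_option linter.unusedSectionVars false

open WeierstrassCurve WeierstrassCurve.Affine Polynomial

namespace Fermat.Agent.H51.S58

section generic

variable {K : Type*} [Field K] [DecidableEq K] [IsAlgClosed K]

/-- The set of points whose `x`-coordinate lies in a finite set is finite. -/
theorem s58_finite_xc_mem (W : WeierstrassCurve K) (X : Finset K) :
    {P : W.toAffine.Point | P = 0 ∨ Fermat.Agent.H38.xc W P ∈ X}.Finite := by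
  classical
  have hf : (∏ x ∈ X, (Polynomial.X - C x) : K[X]) ≠ 0 :=
    Finset.prod_ne_zero_iff.mpr fun x _ => Polynomial.X_sub_C_ne_zero x
  refine Fermat.Agent.H70.finite_of_xc_root W _ _ hf ?_
  rintro P (hP | hP) hP0
  · exact absurd hP hP0
  · rw [Polynomial.eval_prod]
    exact Finset.prod_eq_zero hP (by simp)

/-- The group of points of a Weierstrass curve with `Δ ≠ 0` over an algebraically closed field
is infinite. -/
theorem s58_infinite_point (W : WeierstrassCurve K) (hΔ : W.Δ ≠ 0) :
    Infinite W.toAffine.Point := by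
  have hex : ∀ x : K, ∃ P : W.toAffine.Point, P ≠ 0 ∧ Fermat.Agent.H38.xc W P = x := by
    intro x
    obtain ⟨y, hy⟩ := Fermat.Agent.H74.exists_equation_of_isAlgClosed (W := W.toAffine) x
    have hns : W.toAffine.Nonsingular x y :=
      (W.toAffine.equation_iff_nonsingular_of_Δ_ne_zero hΔ).mp hy
    exact ⟨Point.some x y hns, Point.some_ne_zero hns, rfl⟩
  choose f hf using hex
  have hinj : Function.Injective f := by
    intro x x' h
    rw [← (hf x).2, ← (hf x').2, h]
  have : Infinite K := IsAlgClosed.instInfinite
  exact Infinite.of_injective f hinj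

/-- An additive endomorphism vanishing at all points with `x ∉ X` is zero. -/
theorem s58_addMonoidHom_eq_zero_of_generic (W : WeierstrassCurve K) (hΔ : W.Δ ≠ 0)
    (H : W.toAffine.Point →+ W.toAffine.Point) (X : Finset K)
    (h : ∀ (x y : K) (hxy : W.toAffine.Nonsingular x y), x ∉ X → H (Point.some x y hxy) = 0)
    (P₀ : W.toAffine.Point) : H P₀ = 0 := by
  classical
  set B : Set W.toAffine.Point := {P | P = 0 ∨ Fermat.Agent.H38.xc W P ∈ X} with hB
  have hBfin : B.Finite := s58_finite_xc_mem W X
  have hgood : ∀ P : W.toAffine.Point, P ∉ B → H P = 0 := by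
    intro P hP
    rcases P with _ | ⟨x, y, hxy⟩
    · exact absurd (Or.inl rfl) hP
    · exact h x y hxy fun hx => hP (Or.inr hx)
  have hB' : ((fun Q => P₀ - Q) '' B).Finite := hBfin.image _
  have := s58_infinite_point W hΔ
  obtain ⟨Q, hQ⟩ := (hBfin.union hB').exists_notMem
  have hQ1 : Q ∉ B := fun hq => hQ (Or.inl hq)
  have hQ2 : P₀ - Q ∉ B := by
    intro hq
    apply hQ
    right
    exact ⟨P₀ - Q, hq, by abel_nf⟩
  have e : P₀ = Q + (P₀ - Q) := by abel
  rw [e, map_add, hgood Q hQ1, hgood _ hQ2, add_zero]

end generic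

section hasse

variable {F : Type} [Field F] [Fintype F] (E : WeierstrassCurve F)

/-- **The Hasse relation from its generic form.** -/
theorem hasseRelation_of_generic (hΔ : E.Δ ≠ 0)
    (h : ∀ (K : Type) [Field K] [DecidableEq K] [Algebra F K] [IsAlgClosed K],
      ∃ X : Finset K, ∀ (x y : K) (hxy : (E⁄K).toAffine.Nonsingular x y), x ∉ X →
        (2 : ℤ) • Fermat.Agent.H40.hasseOp E K (Point.some x y hxy) = 0) :
    Fermat.Agent.H40.HasseRelation E := by
  classical
  intro k _ _ _ P
  -- pass to an algebraic closure of `k`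
  let K := AlgebraicClosure k
  let ψ : k →ₐ[F] K := IsScalarTower.toAlgHom F k K
  have hψ : Function.Injective (Point.map (W' := E) ψ) :=
    Point.map_injective (W' := E) (f := ψ)
  apply hψ
  rw [map_zsmul, ← Fermat.Agent.H40.hasseOp_map, map_zero]
  obtain ⟨X, hX⟩ := h K
  have hΔK : (E⁄K).Δ ≠ 0 := by
    change (E.map (algebraMap F K)).Δ ≠ 0
    rw [WeierstrassCurve.map_Δ]
    exact (map_ne_zero_iff _ (algebraMap F K).injective).mpr hΔ
  exact s58_addMonoidHom_eq_zero_of_generic (E⁄K) hΔK
    ((2 : ℤ) • Fermat.Agent.H40.hasseOp E K) X (fun x y hxy hx => hX x y hxy hx) _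

end hasse

end Fermat.Agent.H51.S58
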