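import Mathlib
import Fermat.Prelude.Def_WeierstrassCurve_ConductorLevel
import Fermat.Prelude.Def_FLTPrelim_ModularRep
import Fermat.Prelude.Def_FLTPrelim_Ramification
import Fermat.Prelude.Def_EllipticCurve_FrobeniusTrace
import Fermat.Prelude.Def_CuspForm_HeckeGaloisRepDatum
import Fermat.Prelude.Def_CuspForm_Newforms
import Fermat.Prelude.Def_GaloisRep_LocalConditions
import Fermat.Prelude.Def_GaloisRep_Residual
import Fermat.Agent.H40.Hasse.Defs

/-!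
# S58 GLUE (helper51, sub-lead): interfaces

Target: `s58_of (h35 : S35Statement) (h36 : S36Statement) : S58Statement`, i.e. the frozen
statement S58 (conductor-level matching) CONDITIONAL on the frozen statements S35 and S36.

## Proof plan (all blocks below are exact `Prop`s; one row per block)

Let `W` be semistable, `p` odd with `E[p]` irreducible, `N` cube-free with `p² ∤ N`, divisible by
all bad primes, and `f` a normalized eigenform of level `N` with `a_ℓ(f) = a_ℓ(W)` for `ℓ ∤ N`.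

1. `NewformExtractStatement`: a newform `g` of some level `M ∣ N` with `a_ℓ(g) = a_ℓ(W)`, `ℓ ∤ N`.
2. `Wire35Statement`, `Wire36Statement`, `Wire35MatchStatement`: S35 / S36 applied to `g` with
   `O' = ℤ_[lam]` (the Hecke character of `g` on the Hecke algebra away from `S ⊇ primes(N)` has
   range `ℤ`): a `lam`-adic representation `ρ` with `charpoly ρ(Frob_ℓ) = X² - a_ℓ(W) X + ℓ`
   (`FrobCharpoly`) for `ℓ ∉ S`.
3. `CompareStatement` (Frobenius density, power form): for every `g ∈ G_ℚ` and `k` there are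
   integers `t ≡ tr ρ(g)`, `d ≡ det ρ(g)` mod `lam^k` with `g ζ = ζ^d` on `lam^k`-th roots of unity
   and `g² - t g + d = 0` on `E[lam^k]`.
4. `FrobExtendStatement`: `charpoly ρ(Frob_q) = X² - a_q(W) X + q` at EVERY good prime `q ≠ lam`
   (from 3, the Frobenius relation at `q` on `E[lam^k]` and a point of exact order `lam^k`).
5. `InertiaUnipotentStatement`: `ρ` is unipotent on inertia at every `q ≠ p` (from 3 and an
   inertia-fixed point of exact order `p^k`).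
6. `ResidualStatement`: the reduction of `ρ` is absolutely irreducible and odd (from 3 at `k = 1`,
   `#E[p] = p²`, irreducibility of `E[p]`, and "involutions invert roots of unity").
7. Conclusion: 5 + 6 + S36 exclude `q² ∥ M`; 4 + S35 exclude good `q ∥ M` (`a_q(W) = ±(q+1)` is
   impossible); so `M ∣ rad Δ`; 4 + S35 (with `ℓ₀ ∉ S`) give `a_ℓ₀(g) = a_ℓ₀(W)` at good
   `ℓ₀ ∣ N`; `StabilisationStatement` moves `g` from level `M` to level `rad Δ`.
-/

set_option autoImplicit false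

open Polynomial WeierstrassCurve WeierstrassCurve.Affine

namespace Fermat.Agent.H51.S58

/-- The absolute Galois group of `ℚ`. -/
abbrev GQ : Type := AlgebraicClosure ℚ ≃ₐ[ℚ] AlgebraicClosure ℚ

/-- The group `E(ℚ̄)` of an integral Weierstrass model. -/
abbrev EPt (W : WeierstrassCurve ℤ) : Type :=
  ((W.map (Int.castRingHom ℚ))⁄(AlgebraicClosure ℚ)).Point

/-! ## The three frozen statements, as `Prop`s -/

/-- Frozen S35, verbatim. -/
def S35Statement : Prop :=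
  ∀ {M : ℕ} [NeZero M] {g : CuspForm (CongruenceSubgroup.Gamma0 M) 2} (_hg : g.IsNewform)
    (lam : ℕ) [Fact lam.Prime]
    (S : Finset ℕ)
    (O' : Type) [CommRing O'] [IsDomain O'] [IsDiscreteValuationRing O']
    [IsAdicComplete (IsLocalRing.maximalIdeal O') O'] [Finite (IsLocalRing.ResidueField O')]
    [CharZero O'] (_hlamO' : (lam : O') ∈ IsLocalRing.maximalIdeal O')
    (chig : CuspForm.heckeAlgebra M 2 (↑S : Set ℕ) →+* ℂ)
    (_hchig : ∀ (ℓ : ℕ) (hℓ : ℓ.Prime) (hℓM : ¬ ℓ ∣ M) (hℓS : ℓ ∉ (↑S : Set ℕ)),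
      chig (CuspForm.heckeAlgebra.T hℓ hℓM hℓS) = ModularFormClass.qCoeff g ℓ)
    (iota : chig.range →+* O')
    (_hlamS : lam ∈ S) (_hMS : ∀ q : ℕ, q.Prime → q ∣ M → q ∈ S),
    ∃ (O'' : Type) (_ : CommRing O'') (_ : IsDomain O'') (_ : IsDiscreteValuationRing O'')
      (_ : IsAdicComplete (IsLocalRing.maximalIdeal O'') O'') (_ : Finite (IsLocalRing.ResidueField O''))
      (_ : CharZero O'') (_ : Algebra O' O'') (_ : Module.Finite O' O'') (_ : IsLocalHom (algebraMap O' O'')),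
      Function.Injective (algebraMap O' O'') ∧
      ∃ ρ : GaloisRepAdic O'',
        (∀ (ℓ : ℕ) (hℓ : ℓ.Prime) (hℓM : ¬ ℓ ∣ M) (hℓS : ℓ ∉ (↑S : Set ℕ)),
          ∀ A : ValuationSubring (AlgebraicClosure ℚ), A.LiesOverPrime ℓ →
            ∀ σ : AlgebraicClosure ℚ ≃ₐ[ℚ] AlgebraicClosure ℚ, A.IsFrobeniusAt σ ℓ →
              LinearMap.charpoly (ρ.ρ σ) =
                X ^ 2 - C (algebraMap O' O'' ((iota.comp chig.rangeRestrict) (CuspForm.heckeAlgebra.T hℓ hℓM hℓS))) * X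
                  + C ((ℓ : O''))) ∧
        (∀ q : ℕ, q.Prime → q ≠ lam → q ∣ M → ¬ q ^ 2 ∣ M →
          ∀ A : ValuationSubring (AlgebraicClosure ℚ), A.LiesOverPrime q →
            ∀ σ : AlgebraicClosure ℚ ≃ₐ[ℚ] AlgebraicClosure ℚ, A.IsFrobeniusAt σ q →
              LinearMap.charpoly (ρ.ρ σ) = X ^ 2 - C ((q : O'') + 1) * X + C ((q : O'')) ∨
              LinearMap.charpoly (ρ.ρ σ) = X ^ 2 + C ((q : O'') + 1) * X + C ((q : O'')))

/-- Frozen S36, verbatim. -/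
def S36Statement : Prop :=
  ∀ {M : ℕ} [NeZero M] {g : CuspForm (CongruenceSubgroup.Gamma0 M) 2} (_hg : g.IsNewform)
    (lam : ℕ) [Fact lam.Prime]
    (S : Finset ℕ)
    (O' : Type) [CommRing O'] [IsDomain O'] [IsDiscreteValuationRing O']
    [IsAdicComplete (IsLocalRing.maximalIdeal O') O'] [Finite (IsLocalRing.ResidueField O')]
    [CharZero O'] (_hlamO' : (lam : O') ∈ IsLocalRing.maximalIdeal O')
    (_hlam2 : lam ≠ 2)
    (chig : CuspForm.heckeAlgebra M 2 (↑S : Set ℕ) →+* ℂ)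
    (_hchig : ∀ (ℓ : ℕ) (hℓ : ℓ.Prime) (hℓM : ¬ ℓ ∣ M) (hℓS : ℓ ∉ (↑S : Set ℕ)),
      chig (CuspForm.heckeAlgebra.T hℓ hℓM hℓS) = ModularFormClass.qCoeff g ℓ)
    (iota : chig.range →+* O')
    (_hlamS : lam ∈ S) (_hMS : ∀ q : ℕ, q.Prime → q ∣ M → q ∈ S)
    (_hres : ∀ (O'' : Type) [CommRing O''] [IsDomain O''] [IsDiscreteValuationRing O'']
      [IsAdicComplete (IsLocalRing.maximalIdeal O'') O''] [Finite (IsLocalRing.ResidueField O'')] [CharZero O'']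
      [Algebra O' O''] [Module.Finite O' O''] [IsLocalHom (algebraMap O' O'')],
      Function.Injective (algebraMap O' O'') → ∀ (ρ : GaloisRepAdic O''),
      (∀ (ℓ : ℕ) (hℓ : ℓ.Prime) (_hℓlam : ℓ ≠ lam) (hℓM : ¬ ℓ ∣ M) (hℓS : ℓ ∉ (↑S : Set ℕ)),
        ∀ A : ValuationSubring (AlgebraicClosure ℚ), A.LiesOverPrime ℓ →
          ∀ σ : AlgebraicClosure ℚ ≃ₐ[ℚ] AlgebraicClosure ℚ, A.IsFrobeniusAt σ ℓ →
            LinearMap.charpoly (ρ.ρ σ) =
              X ^ 2 - C (algebraMap O' O'' ((iota.comp chig.rangeRestrict) (CuspForm.heckeAlgebra.T hℓ hℓM hℓS))) * X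
                + C ((ℓ : O'')))
      → ρ.residual.IsAbsolutelyIrreducible ∧ ρ.residual.IsOdd),
    ∃ (O'' : Type) (_ : CommRing O'') (_ : IsDomain O'') (_ : IsDiscreteValuationRing O'')
      (_ : IsAdicComplete (IsLocalRing.maximalIdeal O'') O'') (_ : Finite (IsLocalRing.ResidueField O''))
      (_ : CharZero O'') (_ : Algebra O' O'') (_ : Module.Finite O' O'') (_ : IsLocalHom (algebraMap O' O'')),
      Function.Injective (algebraMap O' O'') ∧
      ∃ ρ : GaloisRepAdic O'',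
        (∀ (ℓ : ℕ) (hℓ : ℓ.Prime) (hℓM : ¬ ℓ ∣ M) (hℓS : ℓ ∉ (↑S : Set ℕ)),
          ∀ A : ValuationSubring (AlgebraicClosure ℚ), A.LiesOverPrime ℓ →
            ∀ σ : AlgebraicClosure ℚ ≃ₐ[ℚ] AlgebraicClosure ℚ, A.IsFrobeniusAt σ ℓ →
              LinearMap.charpoly (ρ.ρ σ) =
                X ^ 2 - C (algebraMap O' O'' ((iota.comp chig.rangeRestrict) (CuspForm.heckeAlgebra.T hℓ hℓM hℓS))) * X
                  + C ((ℓ : O''))) ∧
        (∀ q : ℕ, q.Prime → q ≠ lam → M.factorization q = 2 → ¬ ρ.IsUnipotentOnInertiaAt q)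

/-- Frozen S58, verbatim. -/
def S58Statement : Prop :=
  ∀ (W : WeierstrassCurve ℤ) (_hss : W.IsSemistableModel) (N : ℕ)
    (p : ℕ) [Fact p.Prime] (_hp2 : p ≠ 2) (_hirr : W.ModRepIsIrreducible p)
    (_hp2N : ¬ p ^ 2 ∣ N)
    (_hN : W.IsModularModelOfLevel N) (_hbad : ∀ ℓ : ℕ, ℓ.Prime → (ℓ : ℤ) ∣ W.Δ → ℓ ∣ N)
    (_hN3 : ∀ q : ℕ, q.Prime → ¬ q ^ 3 ∣ N),
    W.IsModularModelOfLevel W.conductorLevel

/-! ## Shared definitions -/

/-- `g` is a newform of level `M ∣ N` whose good eigenvalues away from `N` are those of `W`. -/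
structure MatchData (W : WeierstrassCurve ℤ) (N M : ℕ)
    (g : CuspForm (CongruenceSubgroup.Gamma0 M) 2) : Prop where
  ne_zero : N ≠ 0
  disc_ne_zero : W.Δ ≠ 0
  dvd : M ∣ N
  newform : g.IsNewform
  bad : ∀ ℓ : ℕ, ℓ.Prime → (ℓ : ℤ) ∣ W.Δ → ℓ ∣ N
  coeff : ∀ ℓ : ℕ, ℓ.Prime → ¬ ℓ ∣ N → ModularFormClass.qCoeff g ℓ = ((W.apOfModel ℓ : ℤ) : ℂ)

/-- The Frobenius condition: at every prime `ℓ ∉ S`, every Frobenius element at every place
over `ℓ` has characteristic polynomial `X² - a_ℓ(W) X + ℓ`. -/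
def FrobCharpoly (W : WeierstrassCurve ℤ) {O : Type} [CommRing O] [IsDomain O]
    [IsDiscreteValuationRing O] (ρ : GaloisRepAdic O) (S : Finset ℕ) : Prop :=
  ∀ ℓ : ℕ, ℓ.Prime → ℓ ∉ S →
    ∀ A : ValuationSubring (AlgebraicClosure ℚ), A.LiesOverPrime ℓ →
      ∀ σ : GQ, A.IsFrobeniusAt σ ℓ →
        LinearMap.charpoly (ρ.ρ σ) = X ^ 2 - C (((W.apOfModel ℓ : ℤ) : O)) * X + C ((ℓ : O))

/-- `P` is `0`, or an `A`-integral point whose reduction is a nonsingular point of the reduction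
of the model `W` (same shape as the hypothesis of
`Fermat.Agent.H8.inertia_smul_sub_of_nonsingular_reduction`). -/
def GoodRedAt (W : WeierstrassCurve ℤ) (A : ValuationSubring (AlgebraicClosure ℚ)) :
    EPt W → Prop
  | .zero => True
  | .some x y _ => x ∈ A ∧ y ∈ A ∧
      (((W.map (Int.castRingHom ℚ))⁄(AlgebraicClosure ℚ)).a₁ * y -
          (3 * x ^ 2 + 2 * ((W.map (Int.castRingHom ℚ))⁄(AlgebraicClosure ℚ)).a₂ * x +
            ((W.map (Int.castRingHom ℚ))⁄(AlgebraicClosure ℚ)).a₄) ∉ A.nonunits ∨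
        2 * y + ((W.map (Int.castRingHom ℚ))⁄(AlgebraicClosure ℚ)).a₁ * x +
          ((W.map (Int.castRingHom ℚ))⁄(AlgebraicClosure ℚ)).a₃ ∉ A.nonunits)

/-- `P` has exact order `n`. -/
def HasExactOrder {W : WeierstrassCurve ℤ} (P : EPt W) (n : ℕ) : Prop :=
  n • P = 0 ∧ ∀ m : ℕ, m • P = 0 → n ∣ m

/-! ## Modular side -/

/-- **NEWFORM** (elementary: minimal level). -/
def NewformExtractStatement : Prop :=
  ∀ (N : ℕ) (f : CuspForm (CongruenceSubgroup.Gamma0 N) 2), N ≠ 0 → f.IsNormalizedEigenform →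
    ∃ (M : ℕ) (g : CuspForm (CongruenceSubgroup.Gamma0 M) 2), M ∣ N ∧ g.IsNewform ∧
      ∀ ℓ : ℕ, ℓ.Prime → ¬ ℓ ∣ N → ModularFormClass.qCoeff g ℓ = ModularFormClass.qCoeff f ℓ

/-- **EIG**: the Hecke character of a normalized eigenform on the Hecke algebra away from
`S ⊇ primes(M)`; its range lies in every subring of `ℂ` containing the `a_ℓ(g)`, `ℓ ∉ S`. -/
def EigenCharStatement : Prop :=
  ∀ (M : ℕ) [NeZero M] (g : CuspForm (CongruenceSubgroup.Gamma0 M) 2),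
    g.IsNormalizedEigenform → ∀ (S : Finset ℕ), (∀ q : ℕ, q.Prime → q ∣ M → q ∈ S) →
    ∃ chig : CuspForm.heckeAlgebra M 2 (↑S : Set ℕ) →+* ℂ,
      (∀ (ℓ : ℕ) (hℓ : ℓ.Prime) (hℓM : ¬ ℓ ∣ M) (hℓS : ℓ ∉ (↑S : Set ℕ)),
        chig (CuspForm.heckeAlgebra.T hℓ hℓM hℓS) = ModularFormClass.qCoeff g ℓ) ∧
      ∀ B : Subring ℂ, (∀ ℓ : ℕ, ℓ.Prime → ¬ ℓ ∣ M → ℓ ∉ S → ModularFormClass.qCoeff g ℓ ∈ B) →
        chig.range ≤ B

/-- **EMB** (Schur + Hensel): for an algebraic integer `θ` and a finite set `F` of primes there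
is a prime `lam ∉ F` and a ring homomorphism `ι : ℤ[θ] → ℤ_[lam]`; moreover if `ι θ` is a
rational integer `a` then `θ = a` (the minimal polynomial of `θ` is irreducible). -/
def PadicEmbeddingStatement : Prop :=
  ∀ (θ : ℂ), IsIntegral ℤ θ → ∀ F : Finset ℕ,
    ∃ (lam : ℕ) (_ : Fact lam.Prime), lam ∉ F ∧
      ∃ ι : (Subring.closure ({θ} : Set ℂ)) →+* ℤ_[lam],
        ∀ a : ℤ, ι ⟨θ, Subring.subset_closure (Set.mem_singleton θ)⟩ = (a : ℤ_[lam]) →
          θ = (a : ℂ)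

/-- **STAB**: stabilisation from level `M` to a squarefree multiple `R`
(`g ↦ (U_q - β)(g)/α` one prime at a time, `α β = q`, `α + β = a_q(g)`). -/
def StabilisationStatement : Prop :=
  ∀ (M R : ℕ) (g : CuspForm (CongruenceSubgroup.Gamma0 M) 2), g.IsNormalizedEigenform →
    M ∣ R → Squarefree R →
    ∃ f' : CuspForm (CongruenceSubgroup.Gamma0 R) 2, f'.IsNormalizedEigenform ∧
      ∀ ℓ : ℕ, ℓ.Prime → ¬ ℓ ∣ R → ModularFormClass.qCoeff f' ℓ = ModularFormClass.qCoeff g ℓ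

/-- **WIRE35**: S35 for `g`, `O' = ℤ_[lam]`, `S = primes(N) ∪ {lam}`. -/
def Wire35Statement : Prop :=
  ∀ (W : WeierstrassCurve ℤ) (N M : ℕ) [NeZero M]
    (g : CuspForm (CongruenceSubgroup.Gamma0 M) 2), MatchData W N M g →
    ∀ (lam : ℕ) [Fact lam.Prime],
    ∃ (O'' : Type) (_ : CommRing O'') (_ : IsDomain O'') (_ : IsDiscreteValuationRing O'')
      (_ : CharZero O''), (lam : O'') ∈ IsLocalRing.maximalIdeal O'' ∧
      ∃ ρ : GaloisRepAdic O'', FrobCharpoly W ρ (insert lam N.primeFactors) ∧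
        (∀ q : ℕ, q.Prime → q ≠ lam → q ∣ M → ¬ q ^ 2 ∣ M →
          ∀ A : ValuationSubring (AlgebraicClosure ℚ), A.LiesOverPrime q →
            ∀ σ : GQ, A.IsFrobeniusAt σ q →
              LinearMap.charpoly (ρ.ρ σ) = X ^ 2 - C ((q : O'') + 1) * X + C ((q : O'')) ∨
              LinearMap.charpoly (ρ.ρ σ) = X ^ 2 + C ((q : O'') + 1) * X + C ((q : O'')))

/-- **WIRE36**: S36 for `g`, `lam = p`, `O' = ℤ_[p]`, `S = primes(N) ∪ {p}`, with the residual
hypothesis in the `FrobCharpoly` form. -/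
def Wire36Statement : Prop :=
  ∀ (W : WeierstrassCurve ℤ) (N M : ℕ) [NeZero M]
    (g : CuspForm (CongruenceSubgroup.Gamma0 M) 2), MatchData W N M g →
    ∀ (p : ℕ) [Fact p.Prime], p ≠ 2 →
    (∀ (O'' : Type) [CommRing O''] [IsDomain O''] [IsDiscreteValuationRing O''] [CharZero O''],
      (p : O'') ∈ IsLocalRing.maximalIdeal O'' → ∀ ρ : GaloisRepAdic O'',
        FrobCharpoly W ρ (insert p N.primeFactors) →
          ρ.residual.IsAbsolutelyIrreducible ∧ ρ.residual.IsOdd) →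
    ∃ (O'' : Type) (_ : CommRing O'') (_ : IsDomain O'') (_ : IsDiscreteValuationRing O'')
      (_ : CharZero O''), (p : O'') ∈ IsLocalRing.maximalIdeal O'' ∧
      ∃ ρ : GaloisRepAdic O'', FrobCharpoly W ρ (insert p N.primeFactors) ∧
        ∀ q : ℕ, q.Prime → q ≠ p → M.factorization q = 2 → ¬ ρ.IsUnipotentOnInertiaAt q

/-- **WIRE35M**: S35 for `g` with a good prime `ℓ₀ ∣ N`, `ℓ₀ ∤ M` left out of `S`; the prime `lam`
is chosen by EMB for `θ = a_ℓ₀(g)`.  `θ'` is the image of `a_ℓ₀(g)` in `O''`. -/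
def Wire35MatchStatement : Prop :=
  ∀ (W : WeierstrassCurve ℤ) (N M : ℕ) [NeZero M]
    (g : CuspForm (CongruenceSubgroup.Gamma0 M) 2), MatchData W N M g →
    ∀ (ℓ₀ : ℕ), ℓ₀.Prime → ℓ₀ ∣ N → ¬ ℓ₀ ∣ M →
    ∃ (lam : ℕ) (_ : Fact lam.Prime), lam ≠ 2 ∧ lam ≠ ℓ₀ ∧
    ∃ (O'' : Type) (_ : CommRing O'') (_ : IsDomain O'') (_ : IsDiscreteValuationRing O'')
      (_ : CharZero O''), (lam : O'') ∈ IsLocalRing.maximalIdeal O'' ∧
      ∃ ρ : GaloisRepAdic O'', FrobCharpoly W ρ (insert lam N.primeFactors) ∧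
        ∃ θ' : O'',
          (∀ A : ValuationSubring (AlgebraicClosure ℚ), A.LiesOverPrime ℓ₀ →
            ∀ σ : GQ, A.IsFrobeniusAt σ ℓ₀ →
              LinearMap.charpoly (ρ.ρ σ) = X ^ 2 - C θ' * X + C ((ℓ₀ : O''))) ∧
          ∀ a : ℤ, θ' = (a : O'') → ModularFormClass.qCoeff g ℓ₀ = (a : ℂ)

/-! ## Elliptic-curve side (no modular forms) -/

/-- **HASSE2 / HASSE3**: the Hasse relation `2 • (φ² - a φ + ℓ) = 0` on `E(k)` for every elliptic
curve over `𝔽_ℓ`, `ℓ ∈ {2, 3}` (for `ℓ ≥ 5` this is `Fermat.Agent.H40.hasseRelation_reductionMod`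
/ `Fermat.Agent.H74.hasseRelation_zmod`). -/
def HasseSmallStatement (ℓ : ℕ) [Fact ℓ.Prime] : Prop :=
  ∀ E : WeierstrassCurve (ZMod ℓ), E.Δ ≠ 0 → Fermat.Agent.H40.HasseRelation E

/-- **CARD-BOUND**: `a_q(W) ≠ ± (q + 1)` (i.e. `1 ≤ #E(𝔽_q) ≤ 2 q + 1`). -/
def TraceBoundStatement : Prop :=
  ∀ (W : WeierstrassCurve ℤ) (q : ℕ), q.Prime →
    W.apOfModel q ≠ (q : ℤ) + 1 ∧ W.apOfModel q ≠ -((q : ℤ) + 1)

/-- **FIN-LEVEL**: the action of `G_ℚ` on `E[n]` factors through a finite extension. -/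
def TorsionFiniteLevelStatement : Prop :=
  ∀ (W : WeierstrassCurve ℤ), W.Δ ≠ 0 → ∀ n : ℕ, 0 < n →
    ∃ L : IntermediateField ℚ (AlgebraicClosure ℚ), FiniteDimensional ℚ L ∧
      ∀ σ : GQ, (∀ x ∈ L, σ x = x) → ∀ P : EPt W, n • P = 0 → σ • P = P

/-- **E-DIV**: points of exact order `lam ^ k` exist (`[lam]` is surjective on `E(ℚ̄)`). -/
def ExactOrderStatement : Prop :=
  ∀ (W : WeierstrassCurve ℤ), W.Δ ≠ 0 → ∀ (lam : ℕ), lam.Prime → lam ≠ 2 → ∀ k : ℕ,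
    ∃ P : EPt W, HasExactOrder P (lam ^ k)

/-- **E-CARD**: `#E[p] = p²` for odd `p`. -/
def TorsionCardStatement : Prop :=
  ∀ (W : WeierstrassCurve ℤ), W.Δ ≠ 0 → ∀ (p : ℕ), p.Prime → p ≠ 2 →
    Nat.card (Submodule.torsionBy ℤ (EPt W) p) = p ^ 2

/-- **FROB-REL**: the Frobenius relation on torsion of odd order prime to `q`, at EVERY good
prime `q` (`Fermat.Agent.H4.frobenius_relation` + Hasse relation at `q`, incl. `q = 2, 3`). -/
def FrobeniusRelationStatement : Prop :=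
  ∀ (W : WeierstrassCurve ℤ) (q : ℕ), q.Prime → ¬ (q : ℤ) ∣ W.Δ →
    ∀ A : ValuationSubring (AlgebraicClosure ℚ), A.LiesOverPrime q →
      ∀ σ : GQ, A.IsFrobeniusAt σ q → ∀ n : ℕ, Odd n → ¬ q ∣ n →
        ∀ P : EPt W, n • P = 0 → σ • σ • P - W.apOfModel q • σ • P + (q : ℤ) • P = 0

/-- **INERTIA-E0**: inertia at `q` fixes the torsion points of order prime to `q` with
nonsingular reduction (general integral model, any `q`). -/
def InertiaGoodRedStatement : Prop :=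
  ∀ (W : WeierstrassCurve ℤ) (q : ℕ), q.Prime →
    ∀ A : ValuationSubring (AlgebraicClosure ℚ), A.LiesOverPrime q →
      ∀ σ ∈ A.inertiaSubgroupIn ℚ, ∀ n : ℕ, ¬ q ∣ n → 0 < n →
        ∀ P : EPt W, n • P = 0 → GoodRedAt W A P → σ • P = P

/-- **GOOD-ALL**: at a prime of good reduction every torsion point of order prime to `q` has
nonsingular reduction. -/
def GoodRedAllStatement : Prop :=
  ∀ (W : WeierstrassCurve ℤ) (q : ℕ), q.Prime → ¬ (q : ℤ) ∣ W.Δ →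
    ∀ A : ValuationSubring (AlgebraicClosure ℚ), A.LiesOverPrime q →
      ∀ n : ℕ, ¬ q ∣ n → 0 < n → ∀ P : EPt W, n • P = 0 → GoodRedAt W A P

/-- **E0-DIV**: at a prime `q` of multiplicative reduction and every place over `q` there is a
point of exact order `p ^ k` with nonsingular reduction (`p ≠ q` odd). -/
def NodeExactOrderStatement : Prop :=
  ∀ (W : WeierstrassCurve ℤ), W.Δ ≠ 0 → ∀ (q : ℕ), q.Prime → (q : ℤ) ∣ W.Δ → ¬ (q : ℤ) ∣ W.c₄ →
    ∀ (p : ℕ), p.Prime → p ≠ 2 → p ≠ q →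
    ∀ A : ValuationSubring (AlgebraicClosure ℚ), A.LiesOverPrime q → ∀ k : ℕ,
      ∃ P : EPt W, HasExactOrder P (p ^ k) ∧ GoodRedAt W A P

/-- **INV** (mini Artin-Schreier): every involution `c ≠ 1` of `ℚ̄` inverts the roots of unity of
odd prime order. -/
def InvolutionStatement : Prop :=
  ∀ c : GQ, c * c = 1 → c ≠ 1 → ∀ (p : ℕ), p.Prime → p ≠ 2 →
    ∀ ζ : AlgebraicClosure ℚ, ζ ^ p = 1 → c ζ = ζ⁻¹

/-! ## Comparison of `ρ` with the torsion of `E` -/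

/-- **CMP**: for every `g ∈ G_ℚ` and `k` there are integers `t`, `d` congruent to the trace and
determinant of `ρ g` modulo `lam ^ k`, with `g ζ = ζ ^ d` on `lam ^ k`-th roots of unity and
`g² - t g + d = 0` on `E[lam ^ k]`. -/
def CompareStatement : Prop :=
  ∀ (W : WeierstrassCurve ℤ), W.Δ ≠ 0 → ∀ (lam : ℕ) [Fact lam.Prime], lam ≠ 2 →
    ∀ (O : Type) [CommRing O] [IsDomain O] [IsDiscreteValuationRing O] [CharZero O],
      (lam : O) ∈ IsLocalRing.maximalIdeal O →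
    ∀ (ρ : GaloisRepAdic O) (S : Finset ℕ), FrobCharpoly W ρ S →
    ∀ (g : GQ) (k : ℕ), ∃ (t : ℤ) (d : ℕ),
      LinearMap.trace O ρ.V (ρ.ρ g) - (t : O) ∈ Ideal.span {((lam ^ k : ℕ) : O)} ∧
      LinearMap.det (ρ.ρ g) - (d : O) ∈ Ideal.span {((lam ^ k : ℕ) : O)} ∧
      (∀ ζ : AlgebraicClosure ℚ, ζ ^ (lam ^ k) = 1 → g ζ = ζ ^ d) ∧
      ∀ P : EPt W, (lam ^ k) • P = 0 → g • g • P - t • g • P + (d : ℤ) • P = 0

/-- **EXTEND**: the Frobenius condition holds at every good prime `q ≠ lam`. -/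
def FrobExtendStatement : Prop :=
  ∀ (W : WeierstrassCurve ℤ), W.Δ ≠ 0 → ∀ (lam : ℕ) [Fact lam.Prime], lam ≠ 2 →
    ∀ (O : Type) [CommRing O] [IsDomain O] [IsDiscreteValuationRing O] [CharZero O],
      (lam : O) ∈ IsLocalRing.maximalIdeal O →
    ∀ (ρ : GaloisRepAdic O) (S : Finset ℕ), FrobCharpoly W ρ S →
    ∀ q : ℕ, q.Prime → q ≠ lam → ¬ (q : ℤ) ∣ W.Δ →
      ∀ A : ValuationSubring (AlgebraicClosure ℚ), A.LiesOverPrime q →
        ∀ σ : GQ, A.IsFrobeniusAt σ q →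
          LinearMap.charpoly (ρ.ρ σ) = X ^ 2 - C (((W.apOfModel q : ℤ) : O)) * X + C ((q : O))

/-- **UNIP**: `ρ` is unipotent on inertia at every prime `q ≠ p`. -/
def InertiaUnipotentStatement : Prop :=
  ∀ (W : WeierstrassCurve ℤ), W.IsSemistableModel → W.Δ ≠ 0 →
    ∀ (p : ℕ) [Fact p.Prime], p ≠ 2 →
    ∀ (O : Type) [CommRing O] [IsDomain O] [IsDiscreteValuationRing O] [CharZero O],
      (p : O) ∈ IsLocalRing.maximalIdeal O →
    ∀ (ρ : GaloisRepAdic O) (S : Finset ℕ), FrobCharpoly W ρ S →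
    ∀ q : ℕ, q.Prime → q ≠ p → ρ.IsUnipotentOnInertiaAt q

/-- **RES**: the reduction of `ρ` is absolutely irreducible and odd. -/
def ResidualStatement : Prop :=
  ∀ (W : WeierstrassCurve ℤ), W.Δ ≠ 0 → ∀ (p : ℕ) [Fact p.Prime], p ≠ 2 →
    W.ModRepIsIrreducible p →
    ∀ (O : Type) [CommRing O] [IsDomain O] [IsDiscreteValuationRing O] [CharZero O],
      (p : O) ∈ IsLocalRing.maximalIdeal O →
    ∀ (ρ : GaloisRepAdic O) (S : Finset ℕ), FrobCharpoly W ρ S →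
      ρ.residual.IsAbsolutelyIrreducible ∧ ρ.residual.IsOdd

end Fermat.Agent.H51.S58
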