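import Fermat.Agent.H51.S58.Interfaces
import Fermat.Agent.H4.FrobRelMain
import Fermat.Agent.H40.Hasse.Main

/-!
# S58 GLUE (helper51): the Frobenius relation at every good prime

* `frobeniusRelation_of_five_le`: unconditional for good primes `q ≥ 5`
  (`Fermat.Agent.H4.frobenius_relation` + `Fermat.Agent.H40.hasseRelation_reductionMod`);
* `frobeniusRelation`: at every good prime, given the Hasse relation over `𝔽₂` and `𝔽₃`.
-/

set_option autoImplicit false

open WeierstrassCurve WeierstrassCurve.Affine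

namespace Fermat.Agent.H51.S58

/-- The reduction of `W` at a good prime has nonzero discriminant. -/
theorem s58_reductionMod_Δ_ne_zero (W : WeierstrassCurve ℤ) (q : ℕ)
    (hgood : ¬ (q : ℤ) ∣ W.Δ) : (W.reductionMod q).Δ ≠ 0 := by
  rw [WeierstrassCurve.reductionMod, WeierstrassCurve.map_Δ]
  intro h
  exact hgood ((ZMod.intCast_zmod_eq_zero_iff_dvd _ _).mp h)

/-- The Frobenius relation from the Hasse relation of the reduction. -/
theorem s58_frobeniusRelation_of_hasse (W : WeierstrassCurve ℤ) (q : ℕ) [Fact q.Prime]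
    (hgood : ¬ (q : ℤ) ∣ W.Δ)
    (hH : Fermat.Agent.H40.HasseRelation (W.reductionMod q))
    (A : ValuationSubring (AlgebraicClosure ℚ)) (hA : A.LiesOverPrime q)
    (σ : GQ) (hσ : A.IsFrobeniusAt σ q) (n : ℕ) (hn : Odd n) (hqn : ¬ q ∣ n)
    (P : EPt W) (hP : n • P = 0) :
    σ • σ • P - W.apOfModel q • σ • P + (q : ℤ) • P = 0 :=
  Fermat.Agent.H4.frobenius_relation A W hgood hH hA hσ hn hqn P hP

/-- **FROB-REL for `q ≥ 5`** (unconditional). -/
theorem frobeniusRelation_of_five_le (W : WeierstrassCurve ℤ) (q : ℕ) (hq : q.Prime)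
    (hq5 : 5 ≤ q) (hgood : ¬ (q : ℤ) ∣ W.Δ)
    (A : ValuationSubring (AlgebraicClosure ℚ)) (hA : A.LiesOverPrime q)
    (σ : GQ) (hσ : A.IsFrobeniusAt σ q) (n : ℕ) (hn : Odd n) (hqn : ¬ q ∣ n)
    (P : EPt W) (hP : n • P = 0) :
    σ • σ • P - W.apOfModel q • σ • P + (q : ℤ) • P = 0 := by
  haveI : Fact q.Prime := ⟨hq⟩
  exact s58_frobeniusRelation_of_hasse W q hgood
    (Fermat.Agent.H40.hasseRelation_reductionMod W q hq5 hgood) A hA σ hσ n hn hqn P hP

/-- **FROB-REL** at every good prime, given the Hasse relation over `𝔽₂` and `𝔽₃`. -/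
theorem frobeniusRelation
    (h2 : haveI : Fact (Nat.Prime 2) := ⟨Nat.prime_two⟩; HasseSmallStatement 2)
    (h3 : haveI : Fact (Nat.Prime 3) := ⟨Nat.prime_three⟩; HasseSmallStatement 3) :
    FrobeniusRelationStatement := by
  intro W q hq hgood A hA σ hσ n hn hqn P hP
  haveI : Fact q.Prime := ⟨hq⟩
  by_cases hq5 : 5 ≤ q
  · exact frobeniusRelation_of_five_le W q hq hq5 hgood A hA σ hσ n hn hqn P hP
  · have hq23 : q = 2 ∨ q = 3 := by
      have h2le := hq.two_le
      have : q = 2 ∨ q = 3 ∨ q = 4 := by omega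
      rcases this with h | h | h
      · exact Or.inl h
      · exact Or.inr h
      · subst h; exact absurd hq (by norm_num)
    rcases hq23 with rfl | rfl
    · exact s58_frobeniusRelation_of_hasse W 2 hgood
        (h2 _ (s58_reductionMod_Δ_ne_zero W 2 hgood)) A hA σ hσ n hn hqn P hP
    · exact s58_frobeniusRelation_of_hasse W 3 hgood
        (h3 _ (s58_reductionMod_Δ_ne_zero W 3 hgood)) A hA σ hσ n hn hqn P hP

end Fermat.Agent.H51.S58
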