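import Fermat.Agent.H51.S58.Top
import Fermat.Agent.H96.S58.MinLevel
import Fermat.Agent.H79.S58.Stab
import Fermat.Agent.H28.S58.Adapters
import Fermat.Agent.H77.S58.Wire
import Fermat.Agent.H33.S58.Wire35Match
import Fermat.Agent.H89.S58.TraceBound

/-!
# S58 GLUE (helper51): the modular side is unconditional

`s58_of_eside`: frozen S58 from frozen S35, S36 and the three elliptic-curve blocks
EXTEND, UNIP, RES.
-/

set_option autoImplicit false

namespace Fermat.Agent.H51.S58

/-- **NEWFORM** (adapter of `Fermat.Agent.H96.S58.exists_newform_of_eigenform`). -/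
theorem s58_newformExtract : NewformExtractStatement := by
  intro N f hN hf
  obtain ⟨M, hMN, g, hg, hga⟩ :=
    Fermat.Agent.H96.S58.exists_newform_of_eigenform (Nat.pos_of_ne_zero hN) f hf
  exact ⟨M, g, hMN, hg, hga⟩

/-- Frozen S58 from frozen S35, S36 and the elliptic-curve blocks EXTEND, UNIP, RES. -/
theorem s58_of_eside (h35 : S35Statement) (h36 : S36Statement)
    (hExt : FrobExtendStatement) (hUnip : InertiaUnipotentStatement)
    (hRes : ResidualStatement) : S58Statement :=
  s58_of_blocks s58_newformExtract Fermat.Agent.H79.S58.stabilisation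
    (Fermat.Agent.H77.S58.wire35 h35 Fermat.Agent.H28.S58.eigenCharStatement)
    (Fermat.Agent.H77.S58.wire36 h36 Fermat.Agent.H28.S58.eigenCharStatement)
    (Fermat.Agent.H33.S58.wire35Match h35 Fermat.Agent.H28.S58.eigenCharStatement
      Fermat.Agent.H28.S58.padicEmbeddingStatement)
    hExt hUnip hRes Fermat.Agent.H89.S58.traceBound

end Fermat.Agent.H51.S58
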