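import Fermat.Agent.H57.S58.NodeExact
import Fermat.Agent.H23.S58.NodeReduce

/-!
# S58 GLUE (helper51): E0-DIV, final assembly

`s58_nodeExactOrder : NodeExactOrderStatement`, unconditional: helper57's assembly
(`Fermat.Agent.H57.S58.nodeExactOrder_of_reduce`: basis of `E[p ^ k]`, Euclid by minimisation on
the clipped valuation `α` of the node model) run against helper23's torsion-aware reduction to
the node model (`Fermat.Agent.H23.S58.nodeReduce`).
-/

set_option autoImplicit false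
set_option linter.style.haveILetI false

open WeierstrassCurve WeierstrassCurve.Affine

namespace Fermat.Agent.H51.S58

open Fermat.Agent.H57.S58

/-- **E0-DIV** from the torsion-aware reduction to the node model (proof of helper57). -/
theorem s58_nodeExactOrder_of_reduceT (hred : Fermat.Agent.H23.S58.NodeReduceStatement) :
    NodeExactOrderStatement := by
  classical
  intro W hΔ q hq hqΔ hc4 p hp _hp2 _hpq A hA k
  rcases Nat.eq_zero_or_pos k with hk | hk
  · subst hk
    refine ⟨0, ⟨by simp, fun m _ => by simp⟩, ?_⟩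
    exact trivial
  obtain ⟨j, rfl⟩ : ∃ j, k = j + 1 := ⟨k - 1, by omega⟩
  obtain ⟨W', e, ha₃, ha₆, ha₁, ha₂, ha₄, ha₄0, hb₂, hgood⟩ := hred W hΔ q hq hqΔ hc4 A hA
  obtain ⟨w, hw⟩ := Fermat.Agent.H73.exists_addVal A hq hA
  -- the node data
  have hW' : Fermat.Agent.H55.IsNodeModel W' := ⟨ha₃, ha₆⟩
  have hb₂A : W'.b₂ ∈ A := by
    have : W'.b₂ = W'.a₁ ^ 2 + 4 * W'.a₂ := by simp only [WeierstrassCurve.b₂]
    rw [this]
    have h4 : (4 : AlgebraicClosure ℚ) ∈ A := by
      have : ((4 : ℕ) : AlgebraicClosure ℚ) ∈ A := natCast_mem A 4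
      exact_mod_cast this
    exact A.add_mem _ _ (pow_mem ha₁ 2) (A.mul_mem _ _ h4 ha₂)
  have hb₂0 : W'.b₂ ≠ 0 := by
    intro h0
    exact hb₂ (by rw [h0, ValuationSubring.mem_nonunits_iff]; simp)
  have hd : Fermat.Agent.H55.NodeDataG w W'.b₂ W'.a₄ := by
    refine ⟨Or.inr ?_, hb₂0, addVal_eq_zero_of_unit A w hw hb₂A hb₂, ha₄0,
      addVal_pos_of_mem_nonunits A w hw ha₄0 ha₄⟩
    have h2 : (2 : AlgebraicClosure ℚ) ∈ A := by
      have : ((2 : ℕ) : AlgebraicClosure ℚ) ∈ A := natCast_mem A 2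
      exact_mod_cast this
    exact addVal_nonneg_of_mem A w hw two_ne_zero h2
  -- a basis of `E[p ^ (j + 1)]`
  obtain ⟨A₀, B₀, hAB⟩ := exists_isTorsionBasis_pow (E := EPt W) hp
    (Fermat.Agent.H10.S58.ec_card_torsionBy W hΔ hp.one_le) j
    (fun Q => Fermat.Agent.H10.S58.ec_exists_nsmul_eq W hΔ (Nat.one_le_pow _ _ hp.pos) Q)
  -- Euclid
  obtain ⟨P, hP0, hPdvd, hPα⟩ := euclid_min (E := EPt W)
    (fun P => Fermat.Agent.H71.alpha w W' (e P))
    (fun P => Fermat.Agent.H55.alphaG_nonneg hd (e P))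
    (fun P Q => by
      have := Fermat.Agent.H55.alphaG_add_sub hW' hd (e P) (e Q)
      simp only [map_add, map_sub]
      rcases this with ⟨_, h⟩ | ⟨h, _⟩
      · exact Or.inr h
      · exact Or.inl h)
    (finite_nsmul_eq_zero W hΔ (Nat.one_le_pow _ _ hp.pos)) hAB
  refine ⟨P, ⟨hP0, hPdvd⟩, hgood P (p ^ (j + 1)) (pow_pos hp.pos _)
    (fun h => _hpq ((Nat.prime_dvd_prime_iff_eq hq hp).mp (hq.dvd_of_dvd_pow h)).symm) hP0 ?_⟩
  -- `α = 0` means: not reducing to the node
  generalize e P = R at hPα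
  cases R with
  | zero => exact Or.inl rfl
  | some x y h =>
    refine Or.inr ⟨x, y, h, rfl, ?_⟩
    rw [Fermat.Agent.H71.alpha_some] at hPα
    unfold Fermat.Agent.H71.alphaX at hPα
    have hη := hd.w_b
    split_ifs at hPα with hx0
    · linarith
    · apply not_mem_nonunits_of_addVal_nonpos A w hw hx0
      have h1 : min (w.w x) (w.w W'.a₄) ≤ 0 := by
        have := le_max_right 0 (min (w.w x) (w.w W'.a₄))
        linarith
      rcases min_le_iff.mp h1 with h2 | h2
      · exact h2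
      · linarith


/-- **E0-DIV**, unconditional. -/
theorem s58_nodeExactOrder : NodeExactOrderStatement :=
  s58_nodeExactOrder_of_reduceT Fermat.Agent.H23.S58.nodeReduce

end Fermat.Agent.H51.S58
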