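import Fermat.Agent.H51.S58.FinalE3
import Fermat.Agent.H51.S58.NodeExactT
import Fermat.Agent.H74.Cub.Hasse3

/-!
# S58 GLUE (helper51): frozen S58 from frozen S35 and S36

`s58_of (h35 : S35Statement) (h36 : S36Statement) : S58Statement`: conductor-level matching for
semistable integral Weierstrass models, conditional ONLY on the frozen statements S35 (Galois
representations attached to newforms, with the Steinberg shape at `q ∥ M`) and S36 (Carayol).

Blocks (all unconditional, see `Interfaces.lean` for the plan):
NEWFORM (helper51), EIG + EMB (helper28), WIRE35/36 (helper77), WIRE35M (helper33),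
STAB (helper79), TB (helper89), MULT (helper64), E-DIV + E-CARD (helper10), INV (helper73),
FIN-LEVEL (helper81), CMP (helper39), EXTEND (helper54), RES (helper88), LOCAL (helper39),
UNIP (helper44), HASSE2 (helper48, helper56), HASSE3 (helper74), E0-DIV (helper57, helper23,
helper79).
-/

set_option autoImplicit false

namespace Fermat.Agent.H51.S58

/-- **Frozen S58 from frozen S35 and S36.** -/
theorem s58_of (h35 : S35Statement) (h36 : S36Statement) : S58Statement :=
  s58_of_open4 h35 h36 Fermat.Agent.H81.S58.torsionFiniteLevel s58_hasseTwo
    Fermat.Agent.H74.Cub.hasseThree s58_nodeExactOrder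

end Fermat.Agent.H51.S58
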