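import Fermat.Agent.H51.S58.Final
import Fermat.Agent.H51.S58.FrobRel
import Fermat.Agent.H39.S58.Compare
import Fermat.Agent.H54.S58.FrobExtend
import Fermat.Agent.H88.S58.Residual
import Fermat.Agent.H10.S58.ECard
import Fermat.Agent.H73.S58.Involution

/-!
# S58 GLUE (helper51): wiring of the landed elliptic-curve blocks

`s58_of_open`: frozen S58 from frozen S35, S36 and the blocks that are still open:
FIN-LEVEL, HASSE2, HASSE3, UNIP.
-/

set_option autoImplicit false

namespace Fermat.Agent.H51.S58

/-- Frozen S58 from frozen S35, S36 and the open blocks FIN-LEVEL, HASSE2, HASSE3, UNIP. -/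
theorem s58_of_open (h35 : S35Statement) (h36 : S36Statement)
    (hFin : TorsionFiniteLevelStatement)
    (h2 : haveI : Fact (Nat.Prime 2) := ⟨Nat.prime_two⟩; HasseSmallStatement 2)
    (h3 : haveI : Fact (Nat.Prime 3) := ⟨Nat.prime_three⟩; HasseSmallStatement 3)
    (hUnip : InertiaUnipotentStatement) : S58Statement :=
  s58_of_eside h35 h36
    (Fermat.Agent.H54.S58.frobExtend (Fermat.Agent.H39.S58.compare hFin)
      (frobeniusRelation h2 h3) Fermat.Agent.H10.S58.exactOrderU)
    hUnip
    (Fermat.Agent.H88.S58.residual (Fermat.Agent.H39.S58.compare hFin)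
      Fermat.Agent.H10.S58.torsionCardU Fermat.Agent.H73.S58.involution)

end Fermat.Agent.H51.S58
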