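import Fermat.Agent.H51.S58.FinalE
import Fermat.Agent.H39.S58.Local
import Fermat.Agent.H44.S58.Unip

/-!
# S58 GLUE (helper51): wiring, second stage

`s58_of_open4`: frozen S58 from frozen S35, S36 and the four blocks that are still open:
FIN-LEVEL, HASSE2, HASSE3, E0-DIV.
-/

set_option autoImplicit false

namespace Fermat.Agent.H51.S58

/-- Frozen S58 from frozen S35, S36 and the open blocks FIN-LEVEL, HASSE2, HASSE3, E0-DIV. -/
theorem s58_of_open4 (h35 : S35Statement) (h36 : S36Statement)
    (hFin : TorsionFiniteLevelStatement)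
    (h2 : haveI : Fact (Nat.Prime 2) := ⟨Nat.prime_two⟩; HasseSmallStatement 2)
    (h3 : haveI : Fact (Nat.Prime 3) := ⟨Nat.prime_three⟩; HasseSmallStatement 3)
    (hNode : NodeExactOrderStatement) : S58Statement :=
  s58_of_open h35 h36 hFin h2 h3
    (Fermat.Agent.H44.S58.inertiaUnipotent (Fermat.Agent.H39.S58.compare hFin)
      Fermat.Agent.H10.S58.exactOrderU Fermat.Agent.H39.S58.goodRedAll
      Fermat.Agent.H39.S58.inertiaGoodRed hNode)

end Fermat.Agent.H51.S58
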