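import Fermat.Agent.H51.S58.Interfaces
import Fermat.Agent.H74.DivPolyCore

/-!
# S58 GLUE (helper51): interfaces, part 2 (division polynomials) and a shared lemma

* `MultFormulaStatement`: the multiplication formula `x(nP) = x - ψ_{n-1} ψ_{n+1} / ψ_n²` at
  EVERY point `P` with `n • P ≠ 0` (torsion points included), in the language of
  `Fermat.Agent.H74.dseq`; and the torsion criterion at every `n ≥ 1`.
* `s58_charpoly_eq`: the characteristic polynomial of an endomorphism of a free module of
  rank two is `X² - tr X + det`.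
-/

set_option autoImplicit false

open Polynomial WeierstrassCurve WeierstrassCurve.Affine

namespace Fermat.Agent.H51.S58

/-- **MULT**: for a field `K` with `2 ≠ 0`, a Weierstrass curve `W` over `K`, a nonzero point `P`
and `n ≥ 1`: `n • P = 0 ↔ ψ_n(P) = 0`, and if `n • P ≠ 0` then
`(x(P) - x(nP)) ψ_n(P)² = ψ_{n-1}(P) ψ_{n+1}(P)`.
(Extends `Fermat.Agent.H74.stepA` / `stepB`, which assume `j • P ≠ 0` for all `j ≤ n`, via the
three-parameter Ward relation with `ψ_{aN}(P) = 0` for the order `N` of `P`.) -/
def MultFormulaStatement : Prop :=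
  ∀ (K : Type) [Field K] [DecidableEq K], (2 : K) ≠ 0 → ∀ (W : Affine K) (P : W.Point), P ≠ 0 →
    ∀ n : ℕ, 1 ≤ n →
      (n • P = 0 ↔ Fermat.Agent.H74.dseq P n = 0) ∧
      (n • P ≠ 0 →
        (Fermat.Agent.H74.ptX P - Fermat.Agent.H74.ptX (n • P)) * Fermat.Agent.H74.dseq P n ^ 2 =
          Fermat.Agent.H74.dseq P ((n : ℤ) - 1) * Fermat.Agent.H74.dseq P ((n : ℤ) + 1))

/-- The characteristic polynomial of an endomorphism of a free module of rank two. -/
theorem s58_charpoly_eq {O : Type} [CommRing O] [Nontrivial O] {V : Type} [AddCommGroup V]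
    [Module O V] [Module.Free O V] [Module.Finite O V] (hV : Module.finrank O V = 2)
    (f : Module.End O V) :
    LinearMap.charpoly f = X ^ 2 - C (LinearMap.trace O V f) * X + C (LinearMap.det f) := by
  classical
  have b := Module.finBasisOfFinrankEq O V hV
  rw [← LinearMap.charpoly_toMatrix f b, LinearMap.trace_eq_matrix_trace O b f,
    ← LinearMap.det_toMatrix b f, Matrix.charpoly_fin_two]

end Fermat.Agent.H51.S58
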