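import Fermat.Agent.H51.S58.FinalE2
import Fermat.Agent.H81.S58.FinLevel
import Fermat.Agent.H57.S58.NodeExact
import Fermat.Agent.H48.S58.Hasse2Asm
import Fermat.Agent.H56.S58.Hasse2Ord

/-!
# S58 GLUE (helper51): wiring, third stage

* `s58_hasseTwo`: the Hasse relation for every elliptic curve over `𝔽₂` (helper48 + helper56).
* `s58_of_open2`: frozen S58 from frozen S35, S36 and the two blocks that are still open:
  HASSE3 and the reduction to the node model (E0-DIV, part [A]).
-/

set_option autoImplicit false

namespace Fermat.Agent.H51.S58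

/-- **HASSE2** (helper48: classification, transfer, supersingular forms; helper56: ordinary
forms). -/
theorem s58_hasseTwo : @HasseSmallStatement 2 (Fact.mk Nat.prime_two) :=
  Fermat.Agent.H48.S58.hasseTwo_of_ordinary Fermat.Agent.H56.S58.hasseRelation_ord0
    Fermat.Agent.H56.S58.hasseRelation_ord1

/-- Frozen S58 from frozen S35, S36 and the open blocks HASSE3, NODE-REDUCE. -/
theorem s58_of_open2 (h35 : S35Statement) (h36 : S36Statement)
    (h3 : haveI : Fact (Nat.Prime 3) := ⟨Nat.prime_three⟩; HasseSmallStatement 3)
    (hRed : Fermat.Agent.H57.S58.NodeReduceStatement) : S58Statement :=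
  s58_of_open4 h35 h36 Fermat.Agent.H81.S58.torsionFiniteLevel s58_hasseTwo h3
    (Fermat.Agent.H57.S58.nodeExactOrder_of_reduce hRed)

end Fermat.Agent.H51.S58
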