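import Fermat.Agent.H51.S58.Interfaces
import Fermat.Agent.H81.FrobExists

/-!
# S58 GLUE: the top assembly (helper51)

`s58_of_blocks`: the frozen statement S58 from the blocks of `Interfaces.lean`.
-/

set_option autoImplicit false

open Polynomial WeierstrassCurve WeierstrassCurve.Affine

namespace Fermat.Agent.H51.S58

/-- Comparing two monic quadratics `X² - a X + c = X² - b X + c`. -/
theorem s58_coeff_eq_of_quadratic_eq {O : Type} [CommRing O] {a b c : O}
    (h : (X ^ 2 - C a * X + C c : O[X]) = X ^ 2 - C b * X + C c) : a = b := by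
  have h1 := congrArg (fun P : O[X] => P.coeff 1) h
  simp only [coeff_add, coeff_sub, coeff_X_pow, coeff_C_mul, coeff_X_one, coeff_C] at h1
  norm_num at h1
  exact h1

/-- Comparing `X² + a X + c = X² - b X + c`. -/
theorem s58_coeff_eq_of_quadratic_eq' {O : Type} [CommRing O] {a b c : O}
    (h : (X ^ 2 + C a * X + C c : O[X]) = X ^ 2 - C b * X + C c) : -a = b := by
  have h1 := congrArg (fun P : O[X] => P.coeff 1) h
  simp only [coeff_add, coeff_sub, coeff_X_pow, coeff_C_mul, coeff_X_one, coeff_C] at h1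
  norm_num at h1
  rw [h1, neg_neg]

/-- An odd prime different from `q`. -/
theorem s58_exists_odd_prime_ne (q : ℕ) : ∃ lam : ℕ, lam.Prime ∧ lam ≠ 2 ∧ lam ≠ q := by
  by_cases h : q = 3
  · exact ⟨5, by norm_num, by norm_num, by omega⟩
  · exact ⟨3, by norm_num, by norm_num, fun h' => h h'.symm⟩

/-- **The top assembly of the S58 glue.** -/
theorem s58_of_blocks
    (hNew : NewformExtractStatement) (hStab : StabilisationStatement)
    (hW35 : Wire35Statement) (hW36 : Wire36Statement) (hW35M : Wire35MatchStatement)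
    (hExt : FrobExtendStatement) (hUnip : InertiaUnipotentStatement)
    (hRes : ResidualStatement) (hTB : TraceBoundStatement) : S58Statement := by
  intro W hss N p _ hp2 hirr hp2N hN hbad hN3
  obtain ⟨f, hf, hfa⟩ := hN
  -- `N ≠ 0`
  have hN0 : N ≠ 0 := by
    rintro rfl
    exact hN3 2 Nat.prime_two (dvd_zero _)
  -- `Δ ≠ 0`
  have hΔ : W.Δ ≠ 0 := by
    intro h0
    obtain ⟨ℓ, hℓN, hℓ⟩ := Nat.exists_infinite_primes (N + 1)
    have h1 : ℓ ∣ N := hbad ℓ hℓ (by rw [h0]; exact dvd_zero _)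
    have h2 := Nat.le_of_dvd (Nat.pos_of_ne_zero hN0) h1
    omega
  obtain ⟨M, g, hMN, hg, hga⟩ := hNew N f hN0 hf
  have hM0 : M ≠ 0 := fun h => hN0 (by rw [h] at hMN; exact zero_dvd_iff.mp hMN)
  have : NeZero M := ⟨hM0⟩
  have hD : MatchData W N M g :=
    { ne_zero := hN0
      disc_ne_zero := hΔ
      dvd := hMN
      newform := hg
      bad := hbad
      coeff := fun ℓ hℓ hℓN => by
        rw [hga ℓ hℓ hℓN]
        exact hfa ℓ hℓ (fun hbadℓ => hℓN (hbad ℓ hℓ hbadℓ)) hℓN }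
  -- Claim A: `M` is squarefree
  have hA : ∀ q : ℕ, q.Prime → ¬ q ^ 2 ∣ M := by
    intro q hq hq2
    have hqp : q ≠ p := by
      rintro rfl
      exact hp2N (hq2.trans hMN)
    have hq3 : ¬ q ^ 3 ∣ M := fun h => hN3 q hq (h.trans hMN)
    have hfac : M.factorization q = 2 := by
      have h2 : 2 ≤ M.factorization q := (hq.pow_dvd_iff_le_factorization hM0).mp hq2
      have h3 : ¬ 3 ≤ M.factorization q := fun h =>
        hq3 ((hq.pow_dvd_iff_le_factorization hM0).mpr h)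
      omega
    obtain ⟨O, _, _, _, _, hpO, ρ, hρ, hnu⟩ := hW36 W N M g hD p hp2
      (fun O'' _ _ _ _ hp ρ hρ => hRes W hΔ p hp2 hirr O'' hp ρ _ hρ)
    exact hnu q hq hqp hfac (hUnip W hss hΔ p hp2 O hpO ρ _ hρ q hq hqp)
  -- Claim B: the primes of `M` are bad
  have hB : ∀ q : ℕ, q.Prime → q ∣ M → (q : ℤ) ∣ W.Δ := by
    intro q hq hqM
    by_contra hgood
    obtain ⟨lam, hlam, hlam2, hlamq⟩ := s58_exists_odd_prime_ne q
    have : Fact lam.Prime := ⟨hlam⟩
    obtain ⟨O, _, _, _, _, hlamO, ρ, hρ, h2⟩ := hW35 W N M g hD lam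
    obtain ⟨A, σ, hAq, hσ⟩ := Fermat.Agent.H81.exists_liesOverPrime_isFrobeniusAt q hq
    have hE := hExt W hΔ lam hlam2 O hlamO ρ _ hρ q hq (Ne.symm hlamq) hgood A hAq σ hσ
    have hTBq := hTB W q hq
    rcases h2 q hq (Ne.symm hlamq) hqM (hA q hq) A hAq σ hσ with h | h
    · rw [h] at hE
      have e := s58_coeff_eq_of_quadratic_eq hE
      have e' : (((q : ℤ) + 1 : ℤ) : O) = ((W.apOfModel q : ℤ) : O) := by
        push_cast; exact e
      exact hTBq.1 (Int.cast_injective e').symm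
    · rw [h] at hE
      have e := s58_coeff_eq_of_quadratic_eq' hE
      have e' : ((-((q : ℤ) + 1) : ℤ) : O) = ((W.apOfModel q : ℤ) : O) := by
        push_cast; exact e
      exact hTBq.2 (Int.cast_injective e').symm
  -- `M ∣ rad Δ`
  have hMR : M ∣ W.conductorLevel := by
    have hsq : Squarefree M := by
      rw [Nat.squarefree_iff_prime_squarefree]
      intro q hq hqq
      exact hA q hq (by rw [pow_two]; exact hqq)
    rw [← Nat.prod_primeFactors_of_squarefree hsq]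
    refine Finset.prod_primes_dvd _ (fun q hq => (Nat.prime_of_mem_primeFactors hq).prime) ?_
    intro q hq
    have hq' := Nat.prime_of_mem_primeFactors hq
    exact (W.prime_dvd_conductorLevel_iff hΔ hq').mpr
      (hB q hq' (Nat.dvd_of_mem_primeFactors hq))
  -- Claim C: the good eigenvalues of `g` are those of `W`
  have hC : ∀ ℓ : ℕ, ℓ.Prime → ¬ (ℓ : ℤ) ∣ W.Δ →
      ModularFormClass.qCoeff g ℓ = ((W.apOfModel ℓ : ℤ) : ℂ) := by
    intro ℓ hℓ hgood
    by_cases hℓN : ℓ ∣ N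
    · have hℓM : ¬ ℓ ∣ M := fun h => hgood (hB ℓ hℓ h)
      obtain ⟨lam, _, hlam2, hlamℓ, O, _, _, _, _, hlamO, ρ, hρ, θ', hθ, hback⟩ :=
        hW35M W N M g hD ℓ hℓ hℓN hℓM
      obtain ⟨A, σ, hAℓ, hσ⟩ := Fermat.Agent.H81.exists_liesOverPrime_isFrobeniusAt ℓ hℓ
      have hE := hExt W hΔ lam hlam2 O hlamO ρ _ hρ ℓ hℓ (Ne.symm hlamℓ) hgood A hAℓ σ hσ
      rw [hθ A hAℓ σ hσ] at hE
      exact hback _ (s58_coeff_eq_of_quadratic_eq hE)
    · exact hD.coeff ℓ hℓ hℓN
  -- stabilisation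
  obtain ⟨f', hf', hfa'⟩ := hStab M W.conductorLevel g hg.1 hMR W.squarefree_conductorLevel
  exact ⟨f', hf', fun ℓ hℓ hgood hℓR => by rw [hfa' ℓ hℓ hℓR]; exact hC ℓ hℓ hgood⟩

end Fermat.Agent.H51.S58
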